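/-
P-MW (S17, Mordell-Weil for J0(N)) -- TOP-LEVEL INTERFACES (architect helper92).

Mathlib only.  This file fixes
* the abstract datum `MWDatum R` ("affine curve over `ℚ` with one rational point at infinity":
  a Dedekind domain `R` with the pole-order filtration `W m = L(m ∞)` and Riemann-Roch numerics
  over `ℚ̄`),
* the height functions `gH` (Schmidt/Pluecker height of `I ∩ W m`), `hInf` (naive height of an
  ideal), `qH` (the Theta-height candidate),
* the seven top-level contracts `CIStatement`, `ShiftStatement`, `WCubeStatement`,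
  `HAddStatement`, `MinkStatement`, `NorthStatement`, `MoveStatement`,
* the abstract goal `FGStatement`.

Nothing is proved here.
-/
import Mathlib

set_option autoImplicit false

noncomputable section

open Module TensorProduct
open scoped nonZeroDivisors

namespace Fermat.Agent.H92.MW

/-- The algebraic closure of `ℚ` used throughout P-MW. -/
abbrev QQbar : Type := AlgebraicClosure ℚ

/-! ### Pluecker vectors and heights of subspaces -/

/-- The vector of maximal minors of an `l × n` matrix, indexed by the `l`-element subsets of the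
columns (columns taken in increasing order). -/
def minorVec {K : Type*} [CommRing K] {l n : ℕ} (A : Matrix (Fin l) (Fin n) K) :
    {s : Finset (Fin n) // s.card = l} → K :=
  fun s => (A.submatrix id (s.1.orderEmbOfFin s.2)).det

/-- The coordinate matrix of a subspace `U` of a finite-dimensional `ℚ`-vector space `E`:
rows = the vectors of `Module.finBasis ℚ U`, written in `Module.finBasis ℚ E`. -/
def coordMatrix {E : Type*} [AddCommGroup E] [Module ℚ E] [Module.Finite ℚ E]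
    (U : Submodule ℚ E) : Matrix (Fin (finrank ℚ U)) (Fin (finrank ℚ E)) ℚ :=
  fun i j => (Module.finBasis ℚ E).repr ((Module.finBasis ℚ U i : U) : E) j

/-- Schmidt height of a subspace: logarithmic height of its Pluecker vector. -/
def subspaceHeight {E : Type*} [AddCommGroup E] [Module ℚ E] [Module.Finite ℚ E]
    (U : Submodule ℚ E) : ℝ :=
  Height.logHeight (minorVec (coordMatrix U))

/-- Logarithmic height of a polynomial over `ℚ` = height of its coefficient vector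
(`natDegree + 1` coefficients), as a point of projective space. -/
def polyHeight (p : Polynomial ℚ) : ℝ :=
  Height.logHeight (fun i : Fin (p.natDegree + 1) => p.coeff i)

/-! ### The abstract datum -/

/-- An "affine curve over `ℚ` with one rational point at infinity".
`R` = functions regular outside `∞`, `W m` = those with a pole of order `≤ m` at `∞`,
`g` = genus, `m₀` = a threshold beyond which `H¹` vanishes (classically `2g - 1`),
`t ∈ R` a function of exact pole order `e ≥ 1`. -/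
structure MWDatum (R : Type) [CommRing R] [Algebra ℚ R] [IsDedekindDomain R] where
  W : ℕ → Submodule ℚ R
  g : ℕ
  m₀ : ℕ
  t : R
  e : ℕ
  notField : ¬ IsField R
  finiteType : Algebra.FiniteType ℚ R
  W_mono : Monotone W
  W_zero : W 0 = 1
  W_mul : ∀ m m' : ℕ, W m * W m' ≤ W (m + m')
  W_exhaust : ∀ f : R, ∃ m : ℕ, f ∈ W m
  W_fin : ∀ m : ℕ, Module.Finite ℚ (W m)
  W_finrank : ∀ m : ℕ, m₀ ≤ m → finrank ℚ (W m) + g = m + 1
  W_step : ∀ m : ℕ, finrank ℚ (W (m + 1)) ≤ finrank ℚ (W m) + 1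
  e_pos : 0 < e
  t_mem : t ∈ W e
  t_not_mem : t ∉ W (e - 1)
  /-- geometric normality (in particular `ℚ̄ ⊗ R` is a domain) -/
  bar_dedekind : IsDedekindDomain (QQbar ⊗[ℚ] R)
  /-- the pole order at `∞` is a valuation on `ℚ̄ ⊗ R` -/
  bar_val : ∀ (a b : QQbar ⊗[ℚ] R) (m m' : ℕ), a ∉ (W m).baseChange QQbar →
    b ∉ (W m').baseChange QQbar → a * b ∉ (W (m + m' + 1)).baseChange QQbar
  /-- Riemann-Roch over `ℚ̄` for `L(m ∞ - D)`, `D` an effective divisor avoiding `∞`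
  (= a nonzero ideal of `ℚ̄ ⊗ R`) -/
  bar_rr : ∀ I : Ideal (QQbar ⊗[ℚ] R), I ≠ ⊥ →
    Module.Finite QQbar ((QQbar ⊗[ℚ] R) ⧸ I) ∧
    ∀ m : ℕ, finrank QQbar ((QQbar ⊗[ℚ] R) ⧸ I) + m₀ ≤ m →
      finrank QQbar ↥((W m).baseChange QQbar ⊓ I.restrictScalars QQbar)
        + finrank QQbar ((QQbar ⊗[ℚ] R) ⧸ I) + g = m + 1

variable {R : Type} [CommRing R] [Algebra ℚ R] [IsDedekindDomain R]

namespace MWDatum

variable (𝒞 : MWDatum R)

instance instFiniteW (m : ℕ) : Module.Finite ℚ (𝒞.W m) := 𝒞.W_fin m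

/-- degree of the effective divisor of an ideal -/
def deg (_𝒞 : MWDatum R) (I : Ideal R) : ℕ := finrank ℚ (R ⧸ I)

/-- `L(m ∞ - D_I) = I ∩ W m`, as a subspace of `W m`. -/
def rrSpace (m : ℕ) (I : Ideal R) : Submodule ℚ (𝒞.W m) :=
  Submodule.comap (𝒞.W m).subtype (I.restrictScalars ℚ)

/-- `G_m(I)`: Schmidt height of `L(m ∞ - D_I) ⊆ L(m ∞)`. -/
def gH (m : ℕ) (I : Ideal R) : ℝ := subspaceHeight (𝒞.rrSpace m I)

/-- characteristic polynomial of multiplication by `t` on `R ⧸ I` (`= ∏_{P ∈ D_I} (X - t(P))`). -/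
def tCharpoly (I : Ideal R) : Polynomial ℚ :=
  open Classical in
  if h : Module.Finite ℚ (R ⧸ I) then
    haveI := h
    (LinearMap.mulLeft ℚ (Ideal.Quotient.mk I 𝒞.t)).charpoly
  else 1

/-- `e * h_∞(I)`: logarithmic height of the coefficient vector of `tCharpoly`. -/
def hT (I : Ideal R) : ℝ := polyHeight (𝒞.tCharpoly I)

/-- the naive height `h_∞(I)` -/
def hInf (I : Ideal R) : ℝ := 𝒞.hT I / 𝒞.e

/-- `Q_l(I) = G_m(I) - l * h_∞(I)` with `m = deg I + l + g - 1` (so that `dim L(m∞ - D_I) = l`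
as soon as `l + g ≥ m₀ + 1`). -/
def qH (l : ℕ) (I : Ideal R) : ℝ :=
  𝒞.gH (𝒞.deg I + l + 𝒞.g - 1) I - l * 𝒞.hInf I

/-! ### The seven top-level contracts -/

/-- (CI) class invariance of `Q_l`. -/
def CIStatement : Prop :=
  ∀ l dmax : ℕ, 1 ≤ l → 𝒞.m₀ + 1 ≤ l + 𝒞.g → ∃ C : ℝ, ∀ I I' : (Ideal R)⁰,
    𝒞.deg I ≤ dmax → 𝒞.deg I' ≤ dmax → ClassGroup.mk0 I = ClassGroup.mk0 I' →
    |𝒞.qH l I - 𝒞.qH l I'| ≤ C

/-- (SHIFT) `G_{m+1}(I) = G_m(I) + h_∞(I) + O(1)` for squarefree `I`. -/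
def ShiftStatement : Prop :=
  ∀ m d : ℕ, d + 𝒞.m₀ ≤ m → ∃ C : ℝ, ∀ I : Ideal R, I ≠ ⊥ → Squarefree I → 𝒞.deg I = d →
    |𝒞.gH (m + 1) I - 𝒞.gH m I - 𝒞.hInf I| ≤ C

/-- (WCUBE) the cube relation for `G_m` at a common level `m`, for pairwise coprime squarefree
ideals. -/
def WCubeStatement : Prop :=
  ∀ m d₁ d₂ d₃ : ℕ, d₁ + d₂ + d₃ + 𝒞.m₀ ≤ m → ∃ C : ℝ, ∀ I₁ I₂ I₃ : Ideal R,
    I₁ * I₂ * I₃ ≠ ⊥ → Squarefree (I₁ * I₂ * I₃) →
    𝒞.deg I₁ = d₁ → 𝒞.deg I₂ = d₂ → 𝒞.deg I₃ = d₃ →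
    |𝒞.gH m (I₁ * I₂ * I₃) - 𝒞.gH m (I₁ * I₂) - 𝒞.gH m (I₁ * I₃) - 𝒞.gH m (I₂ * I₃)
        + 𝒞.gH m I₁ + 𝒞.gH m I₂ + 𝒞.gH m I₃| ≤ C

/-- (HADD) additivity of the naive height. -/
def HAddStatement : Prop :=
  ∀ d : ℕ, ∃ C : ℝ, ∀ I J : Ideal R, I ≠ ⊥ → J ≠ ⊥ → 𝒞.deg I ≤ d → 𝒞.deg J ≤ d →
    |𝒞.hInf (I * J) - 𝒞.hInf I - 𝒞.hInf J| ≤ C

/-- (MINK) Minkowski: the inverse class contains an ideal of small naive height. -/
def MinkStatement : Prop :=
  ∀ l d : ℕ, 1 ≤ l → 𝒞.m₀ + 1 ≤ l + 𝒞.g → ∃ C : ℝ, ∀ I : (Ideal R)⁰, 𝒞.deg I = d →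
    ∃ J : (Ideal R)⁰, 𝒞.deg J ≤ l + 𝒞.g - 1 ∧ ClassGroup.mk0 J = (ClassGroup.mk0 I)⁻¹ ∧
      𝒞.hInf J ≤ 𝒞.qH l I / l + C

/-- (NORTH) Northcott for the naive height, and non-negativity. -/
def NorthStatement : Prop :=
  (∀ I : Ideal R, 0 ≤ 𝒞.hInf I) ∧
  ∀ (d : ℕ) (B : ℝ), {I : Ideal R | I ≠ ⊥ ∧ 𝒞.deg I ≤ d ∧ 𝒞.hInf I ≤ B}.Finite

/-- (MOVE) moving lemma: every class contains a squarefree ideal of a fixed degree `d₀`,
coprime to any given nonzero ideal. -/
def MoveStatement : Prop :=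
  ∃ d₀ : ℕ, ∀ (x : ClassGroup R) (J : Ideal R), J ≠ ⊥ →
    ∃ I : (Ideal R)⁰, Squarefree (I : Ideal R) ∧ IsCoprime (I : Ideal R) J ∧
      𝒞.deg I = d₀ ∧ ClassGroup.mk0 I = x

/-- weak Mordell-Weil for the class group -/
def WeakStatement (_𝒞 : MWDatum R) : Prop :=
  (powMonoidHom (α := ClassGroup R) 2).range.FiniteIndex

/-- THE ABSTRACT GOAL: Mordell-Weil for the class group of `R`. -/
def FGStatement (_𝒞 : MWDatum R) : Prop := Group.FG (ClassGroup R)

/-- The assembly contract (row MW-ASM): the seven contracts and weak Mordell-Weil give `FG`. -/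
def AssemblyStatement : Prop :=
  𝒞.CIStatement → 𝒞.ShiftStatement → 𝒞.WCubeStatement → 𝒞.HAddStatement → 𝒞.MinkStatement →
    𝒞.NorthStatement → 𝒞.MoveStatement → 𝒞.WeakStatement → 𝒞.FGStatement

end MWDatum

end Fermat.Agent.H92.MW

end
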