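/-
P-MW (S17) -- CORE INTERFACES (architect helper92): the Mathlib-only tools and the local
product formula contract.  Nothing is proved here; every `...Statement : Prop` is a row of the
P-MW subtasks table.

Test objects ("valued fields over `ℚ̄`"): an algebraically closed field `𝒦` with a valuation
subring `V` such that (INT) every element of `𝒦` algebraic over `ℚ` lies in `V` and (RES) every
element of `V` is congruent modulo the maximal ideal to an element algebraic over `ℚ`
(i.e. the residue field is `ℚ̄`).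
-/
import Fermat.Agent.H92.MW.Interfaces

set_option autoImplicit false

noncomputable section

open Module TensorProduct
open scoped nonZeroDivisors

namespace Fermat.Agent.H92.MW

/-- (INT) and (RES): the valuation ring `V` contains `ℚ̄` and has residue field `ℚ̄`. -/
def IsQbarValRing {𝒦 : Type} [Field 𝒦] [Algebra ℚ 𝒦] (V : ValuationSubring 𝒦) : Prop :=
  (∀ c : 𝒦, IsAlgebraic ℚ c → c ∈ V) ∧
  (∀ x ∈ V, ∃ c : 𝒦, IsAlgebraic ℚ c ∧ x - c ∈ V.nonunits)

/-! ### (K1) the valuative height comparison principle ("GT") -/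

/-- **GT principle.**  Two finite systems `a`, `b` of elements of a `ℚ`-algebra `𝓢` which have
the same sup-norm at every point with values in every test object `(𝒦, V)` have the same
logarithmic height, up to a constant, at every `ℚ̄`-point at which (after a common rescaling)
they take rational values. -/
def GTPrincipleStatement : Prop :=
  ∀ (𝓢 : Type) [CommRing 𝓢] [Algebra ℚ 𝓢] (ιA ιB : Type) [Fintype ιA] [Fintype ιB]
    (a : ιA → 𝓢) (b : ιB → 𝓢),
    (∀ (𝒦 : Type) [Field 𝒦] [Algebra ℚ 𝒦] [IsAlgClosed 𝒦] (V : ValuationSubring 𝒦),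
      IsQbarValRing V → ∀ y : 𝓢 →ₐ[ℚ] 𝒦,
        (∀ i, ∃ j, V.valuation (y (a i)) ≤ V.valuation (y (b j))) ∧
        (∀ j, ∃ i, V.valuation (y (b j)) ≤ V.valuation (y (a i)))) →
    ∃ C : ℝ, ∀ (y : 𝓢 →ₐ[ℚ] QQbar) (lam : QQbar) (xa : ιA → ℚ) (xb : ιB → ℚ), lam ≠ 0 →
      (∀ i, algebraMap ℚ QQbar (xa i) = lam * y (a i)) →
      (∀ j, algebraMap ℚ QQbar (xb j) = lam * y (b j)) →
      |Height.logHeight xa - Height.logHeight xb| ≤ C

/-! ### (K2) bihomogeneous base-point-free systems -/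

/-- bihomogeneity of bidegree `(d₁, d₂)` in the two groups of variables -/
def IsBihom {ι₁ ι₂ : Type} [Fintype ι₁] [Fintype ι₂] (d₁ d₂ : ℕ)
    (p : MvPolynomial (ι₁ ⊕ ι₂) ℚ) : Prop :=
  ∀ s ∈ p.support, (∑ i : ι₁, s (Sum.inl i)) = d₁ ∧ (∑ j : ι₂, s (Sum.inr j)) = d₂

/-- **BIHOM.**  A bihomogeneous system of bidegree `(d₁, d₂)` without nontrivial common zero
over `ℚ̄` satisfies `h(Φ(x, y)) = d₁ h(x) + d₂ h(y) + O(1)` on rational points. -/
def BihomStatement : Prop :=
  ∀ (ι₁ ι₂ ι₃ : Type) [Fintype ι₁] [Fintype ι₂] [Fintype ι₃] (d₁ d₂ : ℕ)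
    (Φ : ι₃ → MvPolynomial (ι₁ ⊕ ι₂) ℚ), (∀ k, IsBihom d₁ d₂ (Φ k)) →
    (∀ (x : ι₁ → QQbar) (y : ι₂ → QQbar), x ≠ 0 → y ≠ 0 →
      ∃ k, MvPolynomial.aeval (Sum.elim x y) (Φ k) ≠ 0) →
    ∃ C : ℝ, ∀ (x : ι₁ → ℚ) (y : ι₂ → ℚ), x ≠ 0 → y ≠ 0 →
      |Height.logHeight (fun k => MvPolynomial.eval (Sum.elim x y) (Φ k))
        - d₁ * Height.logHeight x - d₂ * Height.logHeight y| ≤ C

/-! ### (K3) Minkowski / pigeonhole in Pluecker form -/

/-- **Small vector.**  The row space of a rational `l × n` matrix of rank `l ≥ 1` contains a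
nonzero vector of logarithmic height at most `(1/l) * (Pluecker height) + log l`. -/
def SmallVectorStatement : Prop :=
  ∀ (l n : ℕ) (A : Matrix (Fin l) (Fin n) ℚ), 1 ≤ l → LinearIndependent ℚ A.row →
    ∃ c : Fin l → ℚ, c ≠ 0 ∧
      Height.logHeight (Matrix.vecMul c A) ≤
        Height.logHeight (minorVec A) / l + Real.log l

/-! ### (K4), (K5) linear algebra of Pluecker vectors -/

/-- **Cauchy-Binet** for maximal minors of a product `A * B`, `A : l × n`, `B : n × n'`. -/
def CauchyBinetStatement : Prop :=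
  ∀ (K : Type) [CommRing K] (l n n' : ℕ) (A : Matrix (Fin l) (Fin n) K)
    (B : Matrix (Fin n) (Fin n') K) (s : {s : Finset (Fin n') // s.card = l}),
    minorVec (A * B) s =
      ∑ u : {u : Finset (Fin n) // u.card = l},
        minorVec A u *
          (B.submatrix (u.1.orderEmbOfFin u.2) (s.1.orderEmbOfFin s.2)).det

/-- **Pluecker duality.**  If the rows of `A : l × n` are a basis of the kernel of
`E : d × n` (rank `d`, `l + d = n`), the maximal minors of `A` and the complementary maximal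
minors of `E` agree up to sign and a common nonzero scalar. -/
def PluckerDualityStatement : Prop :=
  ∀ (K : Type) [Field K] (l d n : ℕ) (_hn : l + d = n) (A : Matrix (Fin l) (Fin n) K)
    (E : Matrix (Fin d) (Fin n) K), LinearIndependent K A.row → LinearIndependent K E.row →
    E * A.transpose = 0 →
    ∃ c : K, c ≠ 0 ∧ ∀ (s : {s : Finset (Fin n) // s.card = l})
      (s' : {s : Finset (Fin n) // s.card = d}), (s'.1 : Finset (Fin n)) = (s.1)ᶜ →
      minorVec A s = c * minorVec E s' ∨ minorVec A s = -(c * minorVec E s')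

/-- Height form of Pluecker duality over `ℚ`. -/
def PluckerDualityHeightStatement : Prop :=
  ∀ (l d n : ℕ), l + d = n → ∀ (A : Matrix (Fin l) (Fin n) ℚ) (E : Matrix (Fin d) (Fin n) ℚ),
    LinearIndependent ℚ A.row → LinearIndependent ℚ E.row → E * A.transpose = 0 →
    Height.logHeight (minorVec A) = Height.logHeight (minorVec E)

/-! ### (K6), (K7) polynomials -/

/-- **Gauss-Gelfond**: `h(f g) = h(f) + h(g) + O_{deg}(1)`. -/
def GaussGelfondStatement : Prop :=
  ∀ d : ℕ, ∃ C : ℝ, ∀ f g : Polynomial ℚ, f ≠ 0 → g ≠ 0 → f.natDegree ≤ d → g.natDegree ≤ d →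
    |polyHeight (f * g) - polyHeight f - polyHeight g| ≤ C

/-- **Northcott for monic polynomials.** -/
def NorthcottPolyStatement : Prop :=
  ∀ (d : ℕ) (B : ℝ),
    {f : Polynomial ℚ | f.Monic ∧ f.natDegree ≤ d ∧ polyHeight f ≤ B}.Finite

/-! ### (K9) integral interpolation ("divided differences") -/

/-- **Integral interpolation.**  `O` a discrete valuation ring, essentially of finite type over a
field `k`, with residue field `k` and uniformizer `u`; `V` a valuation ring over `k`;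
`P a : O → V` local `k`-algebra homomorphisms with pairwise distinct `z a = P a u`.  Then for
every `h ∈ O` the interpolation polynomial of `a ↦ P a h` at the nodes `z a` has coefficients in
`V`, congruent modulo the maximal ideal to the Taylor coefficients of `h`. -/
def InterpolationStatement : Prop :=
  ∀ (k O V : Type) [Field k] [CommRing O] [IsDomain O] [IsDiscreteValuationRing O] [Algebra k O]
    [CommRing V] [IsDomain V] [ValuationRing V] [Algebra k V]
    (u : O) (n : ℕ) (P : Fin n → (O →ₐ[k] V)), Irreducible u →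
    (∀ h : O, ∃ c : k, h - algebraMap k O c ∈ IsLocalRing.maximalIdeal O) →
    (∃ S : Finset O, ∀ h : O, ∃ p q : O, p ∈ Algebra.adjoin k (S : Set O) ∧
      q ∈ Algebra.adjoin k (S : Set O) ∧ IsUnit q ∧ h * q = p) →
    (∀ a, P a u ∈ IsLocalRing.maximalIdeal V) →
    Function.Injective (fun a => P a u) →
    ∀ (h : O) (c : Fin n → k),
      h - ∑ i : Fin n, algebraMap k O (c i) * u ^ (i : ℕ) ∈ Ideal.span {u ^ n} →
      ∃ r : Fin n → V, (∀ a, P a h = ∑ i : Fin n, r i * (P a u) ^ (i : ℕ)) ∧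
        ∀ i, r i - algebraMap k V (c i) ∈ IsLocalRing.maximalIdeal V

/-! ### The local product formula (Block C contract) -/

variable {R : Type} [CommRing R] [Algebra ℚ R] [IsDedekindDomain R]

/-- the evaluation matrix of `d` points (with values in `𝒦`) at the basis of `W m` -/
def evalMatrix (𝒞 : MWDatum R) (m : ℕ) {𝒦 : Type} [Field 𝒦] [Algebra ℚ 𝒦] {d : ℕ}
    (P : Fin d → (R →ₐ[ℚ] 𝒦)) : Matrix (Fin d) (Fin (finrank ℚ (𝒞.W m))) 𝒦 :=
  fun a j => P a ((Module.finBasis ℚ (𝒞.W m) j : 𝒞.W m) : R)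

/-- **LPF (local product formula).**  For every test object there is a "distance" `δ` on the
`𝒦`-points of the curve such that, for all `m ≥ d + m₀` and all `d`-tuples of distinct points,
`(max_J |Δ_J|)^e = (∏_a max(1, |t(P_a)|))^m * ∏_{a<b} δ(P_a, P_b)`, where `Δ_J` are the maximal
minors of the evaluation matrix at level `m`. -/
def LPFStatement (𝒞 : MWDatum R) : Prop :=
  ∀ (𝒦 : Type) [Field 𝒦] [Algebra ℚ 𝒦] [IsAlgClosed 𝒦] (V : ValuationSubring 𝒦),
    IsQbarValRing V →
    ∃ δ : (R →ₐ[ℚ] 𝒦) → (R →ₐ[ℚ] 𝒦) → V.ValueGroup,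
      ∀ (m d : ℕ), d + 𝒞.m₀ ≤ m → ∀ P : Fin d → (R →ₐ[ℚ] 𝒦), Function.Injective P →
        (Finset.univ.sup fun J => V.valuation (minorVec (evalMatrix 𝒞 m P) J)) ^ 𝒞.e =
          (∏ a : Fin d, max 1 (V.valuation (P a 𝒞.t))) ^ m *
            ∏ a : Fin d, ∏ b : Fin d, if a < b then δ (P a) (P b) else 1

/-! ### Intermediate contracts on the datum: norm comparison and Lemma M -/

/-- coordinates of an element of `W k` in `Module.finBasis` -/
def coordVec (𝒞 : MWDatum R) (k : ℕ) (a : 𝒞.W k) : Fin (finrank ℚ (𝒞.W k)) → ℚ :=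
  fun j => (Module.finBasis ℚ (𝒞.W k)).repr a j

/-- multiplication by `a ∈ W k` as a linear map `W m → W (m + k)` -/
def mulMap (𝒞 : MWDatum R) (k m : ℕ) (a : 𝒞.W k) : 𝒞.W m →ₗ[ℚ] 𝒞.W (m + k) where
  toFun w := ⟨(w : R) * (a : R), 𝒞.W_mul m k (Submodule.mul_mem_mul w.2 a.2)⟩
  map_add' x y := by ext; simp [add_mul]
  map_smul' c x := by ext; simp

/-- **NORM.**  `e * h_∞((a)) = e * h(a) + O(1)` for `0 ≠ a ∈ W k`. -/
def NormStatement (𝒞 : MWDatum R) : Prop :=
  ∀ k : ℕ, ∃ C : ℝ, ∀ a : 𝒞.W k, a ≠ 0 →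
    |𝒞.hT (Ideal.span {(a : R)}) - 𝒞.e * Height.logHeight (coordVec 𝒞 k a)| ≤ C

/-- **Lemma M.**  `h(a U) = h(U) + dim(U) * h(a) + O(1)` for `0 ≠ a ∈ W k`, `U ⊆ W m`. -/
def LemmaMStatement (𝒞 : MWDatum R) : Prop :=
  ∀ k m : ℕ, ∃ C : ℝ, ∀ (a : 𝒞.W k) (U : Submodule ℚ (𝒞.W m)), a ≠ 0 →
    |subspaceHeight (U.map (mulMap 𝒞 k m a)) - subspaceHeight U
        - (finrank ℚ U) * Height.logHeight (coordVec 𝒞 k a)| ≤ C

end Fermat.Agent.H92.MW

end
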