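/-
P-MW (S17) -- BASIC CONSEQUENCES OF THE DATUM (architect helper92).
`BasicStatement 𝒞` collects the elementary facts about degrees, pole orders and Riemann-Roch
over `ℚ` which several rows need; rows may assume it as a hypothesis.  Nothing is proved here.
-/
import Fermat.Agent.H92.MW.CoreInterfaces

set_option autoImplicit false

noncomputable section

open Module TensorProduct

namespace Fermat.Agent.H92.MW

variable {R : Type} [CommRing R] [Algebra ℚ R] [IsDedekindDomain R]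

/-- pole order at `∞`: the least `m` with `a ∈ W m` -/
def pole (𝒞 : MWDatum R) (a : R) : ℕ := sInf {m : ℕ | a ∈ 𝒞.W m}

/-- Basic facts: finiteness of `R ⧸ I`, Riemann-Roch over `ℚ`, the pole order is a valuation,
degree of a principal ideal, additivity of the degree, multiplicativity of `tCharpoly`. -/
def BasicStatement (𝒞 : MWDatum R) : Prop :=
  (∀ I : Ideal R, I ≠ ⊥ → Module.Finite ℚ (R ⧸ I)) ∧
  (∀ (I : Ideal R) (m : ℕ), I ≠ ⊥ → 𝒞.deg I + 𝒞.m₀ ≤ m →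
    finrank ℚ (𝒞.rrSpace m I) + 𝒞.deg I + 𝒞.g = m + 1) ∧
  (∀ a b : R, a ≠ 0 → b ≠ 0 → pole 𝒞 (a * b) = pole 𝒞 a + pole 𝒞 b) ∧
  (∀ a : R, a ≠ 0 → 𝒞.deg (Ideal.span {a}) = pole 𝒞 a) ∧
  (∀ I J : Ideal R, I ≠ ⊥ → J ≠ ⊥ → 𝒞.deg (I * J) = 𝒞.deg I + 𝒞.deg J) ∧
  (∀ I J : Ideal R, I ≠ ⊥ → J ≠ ⊥ → 𝒞.tCharpoly (I * J) = 𝒞.tCharpoly I * 𝒞.tCharpoly J)

end Fermat.Agent.H92.MW

end
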