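/-
P-MW (S17) -- SUB-INTERFACES OF ROW MW-GTAPP (architect helper92).

Goal of the block: `ShiftStatement` and `WCubeStatement` from the GT principle, the local product
formula and Pluecker duality.  Nothing is proved here; every `...Statement : Prop` is a row.

Dictionary: a nonzero squarefree ideal `I` of degree `d` has exactly `d` geometric points
`P a : R →ₐ[ℚ] ℚ̄`; the space `I ∩ W m` is the kernel of the evaluation matrix, so its Pluecker
vector is proportional to the vector of maximal minors `Δ_J` of the evaluation matrix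
(Pluecker duality); the squares `Δ_J ^ 2` are rational (Galois invariance); the systems to which
the GT principle is applied live in the tensor power `TPow R D = R ⊗ ... ⊗ R`.
-/
import Fermat.Agent.H92.MW.BasicInterfaces

set_option autoImplicit false

noncomputable section

open Module TensorProduct Polynomial

namespace Fermat.Agent.H92.MW

variable {R : Type} [CommRing R] [Algebra ℚ R] [IsDedekindDomain R]

/-! ### (GA1) geometric points of a squarefree ideal -/

/-- `P` is the tuple of ALL geometric points of `I`, without repetition, and `I` is the ideal of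
functions vanishing at these points. -/
def IsPointTuple (I : Ideal R) {d : ℕ} (P : Fin d → (R →ₐ[ℚ] QQbar)) : Prop :=
  Function.Injective P ∧ (∀ f : R, f ∈ I ↔ ∀ a, P a f = 0) ∧
    ∀ Q : R →ₐ[ℚ] QQbar, (∀ f ∈ I, Q f = 0) → ∃ a, P a = Q

/-- **POINTS.**  A nonzero squarefree ideal of degree `d` has a point tuple of length `d`. -/
def PointsStatement (𝒞 : MWDatum R) : Prop :=
  ∀ (I : Ideal R) (d : ℕ), I ≠ ⊥ → Squarefree I → 𝒞.deg I = d →
    ∃ P : Fin d → (R →ₐ[ℚ] QQbar), IsPointTuple I P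

/-- **POINTS, converse and concatenation.**  The length of a point tuple is the degree, and the
concatenation of point tuples of coprime ideals is a point tuple of the product. -/
def PointsConcatStatement (𝒞 : MWDatum R) : Prop :=
  (∀ (I : Ideal R) (d : ℕ) (P : Fin d → (R →ₐ[ℚ] QQbar)), I ≠ ⊥ → IsPointTuple I P →
    𝒞.deg I = d) ∧
  ∀ (I₁ I₂ : Ideal R) (d₁ d₂ : ℕ) (P₁ : Fin d₁ → (R →ₐ[ℚ] QQbar))
    (P₂ : Fin d₂ → (R →ₐ[ℚ] QQbar)), IsCoprime I₁ I₂ → IsPointTuple I₁ P₁ → IsPointTuple I₂ P₂ →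
    IsPointTuple (I₁ * I₂) (Fin.append P₁ P₂)

/-- **CHARPOLY.**  `tCharpoly I = ∏ (X - t(P a))` over `ℚ̄`. -/
def PointsCharpolyStatement (𝒞 : MWDatum R) : Prop :=
  ∀ (I : Ideal R) (d : ℕ) (P : Fin d → (R →ₐ[ℚ] QQbar)), I ≠ ⊥ → IsPointTuple I P →
    (𝒞.tCharpoly I).map (algebraMap ℚ QQbar) = ∏ a : Fin d, (X - C (P a 𝒞.t))

/-! ### (GA2) duality: the Pluecker vector of `I ∩ W m` and the minors of the evaluation matrix -/

/-- **DUALITY.**  For a point tuple `P` of `I ≠ ⊥` and `m ≥ d + m₀`: some maximal minor of the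
evaluation matrix is nonzero, and every rational vector proportional to the vector of maximal
minors has logarithmic height `G_m(I)`. -/
def DualityStatement (𝒞 : MWDatum R) : Prop :=
  ∀ (I : Ideal R) (m d : ℕ) (P : Fin d → (R →ₐ[ℚ] QQbar)), I ≠ ⊥ → IsPointTuple I P →
    d + 𝒞.m₀ ≤ m →
    (∃ J, minorVec (evalMatrix 𝒞 m P) J ≠ 0) ∧
    ∀ (lam : QQbar) (x : {s : Finset (Fin (finrank ℚ (𝒞.W m))) // s.card = d} → ℚ), lam ≠ 0 →
      (∀ J, algebraMap ℚ QQbar (x J) = lam * minorVec (evalMatrix 𝒞 m P) J) →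
      Height.logHeight x = 𝒞.gH m I

/-- **RATIONALITY.**  Products of two maximal minors of the evaluation matrix of a point tuple
are rational (the Galois group permutes the rows, so it acts on all minors through one sign). -/
def MinorRationalStatement (𝒞 : MWDatum R) : Prop :=
  ∀ (I : Ideal R) (m d : ℕ) (P : Fin d → (R →ₐ[ℚ] QQbar)), IsPointTuple I P →
    ∀ J J', ∃ q : ℚ, algebraMap ℚ QQbar q =
      minorVec (evalMatrix 𝒞 m P) J * minorVec (evalMatrix 𝒞 m P) J'

/-- **SQUARE HEIGHT** (corollary of DUALITY + RATIONALITY + `Height.logHeight_pow`):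
the rational vector of the `2k`-th powers of the minors has height `2k * G_m(I)`. -/
def SquareHeightStatement (𝒞 : MWDatum R) : Prop :=
  ∀ (I : Ideal R) (m d k : ℕ) (P : Fin d → (R →ₐ[ℚ] QQbar)), I ≠ ⊥ → IsPointTuple I P →
    d + 𝒞.m₀ ≤ m →
    ∃ x : {s : Finset (Fin (finrank ℚ (𝒞.W m))) // s.card = d} → ℚ, x ≠ 0 ∧
      (∀ J, algebraMap ℚ QQbar (x J) = minorVec (evalMatrix 𝒞 m P) J ^ (2 * k)) ∧
      Height.logHeight x = (2 * k : ℕ) * 𝒞.gH m I

/-! ### (GA3) Gauss lemma for valuations -/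

/-- **GAUSS.**  `max_k |e_k(z)| = ∏ max(1, |z a|)` for the coefficients of `∏ (X - z a)`. -/
def GaussValStatement : Prop :=
  ∀ (𝒦 : Type) [Field 𝒦] (V : ValuationSubring 𝒦) (d : ℕ) (z : Fin d → 𝒦),
    (Finset.univ.sup fun k : Fin (d + 1) =>
        V.valuation ((∏ a : Fin d, (X - C (z a))).coeff k)) =
      ∏ a : Fin d, max 1 (V.valuation (z a))

/-! ### (GA4) the tensor power and the systems -/

/-- `R ⊗ ... ⊗ R` (`D` factors): its points are the `D`-tuples of points of `R`. -/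
abbrev TPow (R : Type) [CommRing R] [Algebra ℚ R] (D : ℕ) : Type :=
  PiTensorProduct ℚ (fun _ : Fin D => R)

/-- the `a`-th coordinate embedding `R → R ⊗ ... ⊗ R` -/
def tIncl (R : Type) [CommRing R] [Algebra ℚ R] (D : ℕ) (a : Fin D) : R →ₐ[ℚ] TPow R D :=
  PiTensorProduct.singleAlgHom (R := ℚ) (A := fun _ : Fin D => R) a

/-- the universal maximal minor `Δ_J` of the evaluation matrix at level `m` of the sub-tuple
`ι : Fin d → Fin D` -/
def tensorMinor (𝒞 : MWDatum R) (m : ℕ) {D d : ℕ} (ι : Fin d → Fin D)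
    (J : {s : Finset (Fin (finrank ℚ (𝒞.W m))) // s.card = d}) : TPow R D :=
  Matrix.det (Matrix.of fun (a : Fin d) (j : Fin d) =>
    tIncl R D (ι a) ((Module.finBasis ℚ (𝒞.W m) (J.1.orderEmbOfFin J.2 j) : 𝒞.W m) : R))

/-- the universal coefficients of `∏ (X - t(P a))` -/
def tensorSym (𝒞 : MWDatum R) (D : ℕ) (k : Fin (D + 1)) : TPow R D :=
  (∏ a : Fin D, (X - C (tIncl R D a 𝒞.t))).coeff k

/-- **TENSOR.**  Points of the tensor power = tuples of points; values of the universal minors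
and of the universal symmetric functions. -/
def TensorStatement (𝒞 : MWDatum R) : Prop :=
  (∀ (𝒦 : Type) [Field 𝒦] [Algebra ℚ 𝒦] (D : ℕ) (P : Fin D → (R →ₐ[ℚ] 𝒦)),
    ∃ y : TPow R D →ₐ[ℚ] 𝒦, ∀ a, y.comp (tIncl R D a) = P a) ∧
  (∀ (𝒦 : Type) [Field 𝒦] [Algebra ℚ 𝒦] (D d m : ℕ) (y : TPow R D →ₐ[ℚ] 𝒦)
    (ι : Fin d → Fin D) (J : {s : Finset (Fin (finrank ℚ (𝒞.W m))) // s.card = d}),
    y (tensorMinor 𝒞 m ι J) =
      minorVec (evalMatrix 𝒞 m (fun a => y.comp (tIncl R D (ι a)))) J) ∧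
  (∀ (𝒦 : Type) [Field 𝒦] [Algebra ℚ 𝒦] (D : ℕ) (y : TPow R D →ₐ[ℚ] 𝒦) (k : Fin (D + 1)),
    y (tensorSym 𝒞 D k) = (∏ a : Fin D, (X - C (y (tIncl R D a 𝒞.t)))).coeff k)

/-! ### (GA5) consequences of the local product formula for sub-tuples -/

/-- the product of the distances over the pairs of a tuple -/
def pairProd {α M : Type} [CommMonoid M] (δ : α → α → M) {d : ℕ} (P : Fin d → α) : M :=
  ∏ a : Fin d, ∏ b : Fin d, if a < b then δ (P a) (P b) else 1

/-- the product of the distances between two tuples -/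
def crossProd {α M : Type} [CommMonoid M] (δ : α → α → M) {d d' : ℕ} (P : Fin d → α)
    (P' : Fin d' → α) : M :=
  ∏ a : Fin d, ∏ b : Fin d', δ (P a) (P' b)

/-- **PAIRS** (pure combinatorics): the pair product of a concatenation. -/
def PairProdStatement : Prop :=
  ∀ (α M : Type) [CommMonoid M] (δ : α → α → M) (d d' : ℕ) (P : Fin d → α) (P' : Fin d' → α),
    pairProd δ (Fin.append P P') = pairProd δ P * pairProd δ P' * crossProd δ P P'

/-! ### (GA6) the two assemblies -/

/-- **SHIFT assembly.** -/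
def ShiftAssemblyStatement (𝒞 : MWDatum R) : Prop :=
  GTPrincipleStatement → LPFStatement 𝒞 → BasicStatement 𝒞 → PointsStatement 𝒞 →
    PointsCharpolyStatement 𝒞 → SquareHeightStatement 𝒞 → GaussValStatement →
    TensorStatement 𝒞 → 𝒞.ShiftStatement

/-- **WCUBE assembly.** -/
def WCubeAssemblyStatement (𝒞 : MWDatum R) : Prop :=
  GTPrincipleStatement → LPFStatement 𝒞 → BasicStatement 𝒞 → PointsStatement 𝒞 →
    PointsConcatStatement 𝒞 → SquareHeightStatement 𝒞 → PairProdStatement →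
    TensorStatement 𝒞 → 𝒞.WCubeStatement

end Fermat.Agent.H92.MW

end
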