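/-
P-MW (S17) -- MODULAR-SIDE INTERFACES (architect helper92).
The three contracts whose conjunction gives S17:
* `AbstractMWStatement`  (heights side, Mathlib only): weak MW => FG for every `MWDatum`;
* `ModularDatumStatement` (Block E): `X₀(N)` carries an `MWDatum` whose class group is the group
  of Galois-fixed points of `J₀(N)(ℚ̄)`;
* `WeakMWStatement` (Block F): `J₀(N)(ℚ) / 2 J₀(N)(ℚ)` is finite.
Nothing is proved here.
-/
import Fermat.Agent.H92.MW.CoreInterfaces
import Fermat.Prelude.Def_ModularCurve_ArithmeticGalois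

set_option autoImplicit false

noncomputable section

namespace Fermat.Agent.H92.MW

/-- The Mordell-Weil group `J₀(N)(ℚ)` of S17. -/
abbrev JQ (N : ℕ) : AddSubgroup (ModularCurve.JZero N) :=
  FixedPoints.addSubgroup ((AlgebraicClosure ℚ) ≃ₐ[ℚ] (AlgebraicClosure ℚ)) (ModularCurve.JZero N)

/-- heights side: weak Mordell-Weil implies Mordell-Weil, for every datum -/
def AbstractMWStatement : Prop :=
  ∀ (R : Type) [CommRing R] [Algebra ℚ R] [IsDedekindDomain R] (𝒞 : MWDatum R),
    𝒞.WeakStatement → 𝒞.FGStatement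

/-- Block E: the datum of `X₀(N)` and the dictionary `Cl(R) ≃ J₀(N)(ℚ)`. -/
def ModularDatumStatement : Prop :=
  ∀ (N : ℕ) [NeZero N], N.Prime → 5 ≤ N →
    ∃ (R : Type) (_ : CommRing R) (_ : Algebra ℚ R) (_ : IsDedekindDomain R) (_ : MWDatum R),
      Nonempty (Additive (ClassGroup R) ≃+ ↥(JQ N))

/-- Block F: weak Mordell-Weil. -/
def WeakMWStatement : Prop :=
  ∀ (N : ℕ) [NeZero N], N.Prime → 5 ≤ N →
    (nsmulAddMonoidHom (α := ↥(JQ N)) 2).range.FiniteIndex

/-- the final assembly contract (row MW-FINAL) -/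
def FinalStatement : Prop :=
  AbstractMWStatement → ModularDatumStatement → WeakMWStatement →
    ∀ (N : ℕ) [NeZero N], N.Prime → 5 ≤ N → AddGroup.FG ↥(JQ N)

end Fermat.Agent.H92.MW

end
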