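/-
P-MW (S17) -- SUB-INTERFACES OF ROW MW-LPF, BLOCK C (architect helper92).

Goal of the block: `LPFStatement 𝒞` (the local product formula).  Nothing is proved here; every
`...Statement : Prop` is a row.

Plan.  Fix a test object `(𝒦, V)` and an embedding `ι : ℚ̄ → 𝒦`.  Every point `P : R → 𝒦` has a
CENTRE: a closed point of the curve over `ℚ̄` (a maximal ideal of `ℚ̄ ⊗ R`) if `|t(P)| ≤ 1`, and
`∞` if `|t(P)| > 1`.  The points with a given centre `x` are parametrised by the value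
`z(P) = u_x(P)` of a uniformizer at `x` (an element of the maximal ideal of `V`).  For distinct
points `Q_0, ..., Q_{s-1}` with the same centre and `w ∈ W m`, the interpolation polynomial of
`a ↦ lam_m(Q_a) * w(Q_a)` at the nodes `z(Q_a)` has coefficients in `V`, congruent to the Taylor
coefficients ("jets") of `w` at the centre (integral interpolation, landed by helper96).  By
Riemann-Roch the stacked jets are linearly independent.  Newton's interpolation formula then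
writes `diag(lam) * E = L * E'` with `L` lower triangular with diagonal
`∏_{b < a, same centre} (z a - z b)` and `E'` integral with a unit maximal minor.
-/
import Fermat.Agent.H92.MW.BasicInterfaces

set_option autoImplicit false

noncomputable section

open Module TensorProduct Polynomial

namespace Fermat.Agent.H92.MW

variable {R : Type} [CommRing R] [Algebra ℚ R] [IsDedekindDomain R]

/-! ### (C1) Newton's formula and the valuation of the minors (Mathlib only) -/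

/-- the number of earlier indices with the same label -/
def clusterRank {Γ : Type} {d : ℕ} (c : Fin d → Γ) (a : Fin d) : ℕ :=
  open Classical in (Finset.univ.filter fun b : Fin d => b < a ∧ c b = c a).card

/-- **NEWTON.**  `E : d × n` over a valued field, rows labelled by `c` ("centres"), nodes `z`
(pairwise distinct inside each cluster), row scalings `lam`.  Suppose that for every row `a` and
every column `j` the scaled entries `lam b * E b j`, `b ≤ a` in the cluster of `a`, are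
interpolated at the nodes `z b` by a polynomial of degree `≤ clusterRank c a` with top coefficient
`E' a j`, that `E'` is integral and that some maximal minor of `E'` is a unit.  Then
`max_J |Δ_J(E)| * ∏ |lam a| = ∏_{b < a, c b = c a} |z a - z b|`. -/
def NewtonMinorStatement : Prop :=
  ∀ (𝒦 : Type) [Field 𝒦] (V : ValuationSubring 𝒦) (Γ : Type) (d n : ℕ) (c : Fin d → Γ)
    (E E' : Matrix (Fin d) (Fin n) 𝒦) (lam z : Fin d → 𝒦),
    (∀ a b, a ≠ b → c a = c b → z a ≠ z b) →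
    (∀ a j, V.valuation (E' a j) ≤ 1) →
    (∃ J : {s : Finset (Fin n) // s.card = d}, V.valuation (minorVec E' J) = 1) →
    (∀ a j, ∃ r : ℕ → 𝒦, r (clusterRank c a) = E' a j ∧
      ∀ b, b ≤ a → c b = c a →
        lam b * E b j = ∑ i ∈ Finset.range (clusterRank c a + 1), r i * z b ^ i) →
    (Finset.univ.sup fun J => V.valuation (minorVec E J)) * ∏ a, V.valuation (lam a) =
      ∏ a : Fin d, ∏ b : Fin d,
        open Classical in if b < a ∧ c b = c a then V.valuation (z a - z b) else 1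

/-! ### (C2) the cluster contract -/

/-- the stacked jets are linearly independent (Riemann-Roch) -/
def JetIndep (𝒞 : MWDatum R) {Γ : Type} (jet : Γ → ℕ → ℕ → R → QQbar) : Prop :=
  ∀ (m d : ℕ), d + 𝒞.m₀ ≤ m → ∀ c : Fin d → Γ,
    LinearIndependent QQbar (fun a : Fin d => fun j : Fin (finrank ℚ (𝒞.W m)) =>
      jet (c a) m (clusterRank c a) ((Module.finBasis ℚ (𝒞.W m) j : 𝒞.W m) : R))

/-- the properties of centres `cen`, local coordinates `z` and scalings `lam` for one test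
object -/
def IsClusterData (𝒞 : MWDatum R) {Γ : Type} (jet : Γ → ℕ → ℕ → R → QQbar)
    {𝒦 : Type} [Field 𝒦] [Algebra ℚ 𝒦] (V : ValuationSubring 𝒦) (ι : QQbar →ₐ[ℚ] 𝒦)
    (cen : (R →ₐ[ℚ] 𝒦) → Γ) (z : (R →ₐ[ℚ] 𝒦) → 𝒦) (lam : ℕ → (R →ₐ[ℚ] 𝒦) → 𝒦) : Prop :=
  (∀ P, V.valuation (z P) < 1) ∧
  (∀ m P, V.valuation (lam m P) ^ 𝒞.e * (max 1 (V.valuation (P 𝒞.t))) ^ m = 1) ∧
  (∀ P P', cen P = cen P' → z P = z P' → P = P') ∧
  ∀ (s : ℕ) (Q : Fin s → (R →ₐ[ℚ] 𝒦)) (x : Γ), Function.Injective Q → (∀ a, cen (Q a) = x) →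
    ∀ (m : ℕ) (w : R), w ∈ 𝒞.W m →
      ∃ r : Fin s → 𝒦, (∀ a, lam m (Q a) * Q a w = ∑ i : Fin s, r i * z (Q a) ^ (i : ℕ)) ∧
        ∀ i, V.valuation (r i - ι (jet x m i w)) < 1

/-- **CLUSTER.**  There are jets satisfying Riemann-Roch, and for every test object there are
centres, local coordinates and scalings with integral interpolation. -/
def ClusterStatement (𝒞 : MWDatum R) : Prop :=
  ∃ (Γ : Type) (jet : Γ → ℕ → ℕ → R → QQbar), JetIndep 𝒞 jet ∧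
    ∀ (𝒦 : Type) [Field 𝒦] [Algebra ℚ 𝒦] [IsAlgClosed 𝒦] (V : ValuationSubring 𝒦),
      IsQbarValRing V → ∀ ι : QQbar →ₐ[ℚ] 𝒦,
        ∃ (cen : (R →ₐ[ℚ] 𝒦) → Γ) (z : (R →ₐ[ℚ] 𝒦) → 𝒦) (lam : ℕ → (R →ₐ[ℚ] 𝒦) → 𝒦),
          IsClusterData 𝒞 jet V ι cen z lam

/-- **LPF assembly.** -/
def LPFAssemblyStatement (𝒞 : MWDatum R) : Prop :=
  NewtonMinorStatement → ClusterStatement 𝒞 → LPFStatement 𝒞

/-! ### (C3) the two kinds of centres -/

/-- `ℚ̄ ⊗ R`, the coordinate ring over `ℚ̄` -/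
abbrev Rbar (R : Type) [CommRing R] [Algebra ℚ R] : Type := QQbar ⊗[ℚ] R

/-- `ℚ̄ ⊗ W m`, as a subspace of `ℚ̄ ⊗ R` -/
abbrev Wbar (𝒞 : MWDatum R) (m : ℕ) : Submodule QQbar (Rbar R) := (𝒞.W m).baseChange QQbar

/-- kernel characterisation of the jets at the finite places: `jetF 𝔐 i` = `i`-th Taylor
coefficient at `𝔐` -/
def IsFinJet (jetF : MaximalSpectrum (Rbar R) → ℕ → (Rbar R →ₗ[QQbar] QQbar)) : Prop :=
  ∀ (𝔐 : MaximalSpectrum (Rbar R)) (s : ℕ) (f : Rbar R),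
    (∀ i < s, jetF 𝔐 i f = 0) ↔ f ∈ 𝔐.asIdeal ^ s

/-- kernel characterisation of the jets at `∞`: `jetI m i f` = `i`-th Taylor coefficient of
`u_∞ ^ m * f` at `∞`, for `f ∈ ℚ̄ ⊗ W m` -/
def IsInfJet (𝒞 : MWDatum R) (jetI : ℕ → ℕ → (Rbar R →ₗ[QQbar] QQbar)) : Prop :=
  ∀ (m s : ℕ) (f : Rbar R), s ≤ m → f ∈ Wbar 𝒞 m →
    ((∀ i < s, jetI m i f = 0) ↔ f ∈ Wbar 𝒞 (m - s))

/-- **FINITE CENTRES.**  Points with `|t(P)| ≤ 1`. -/
def FinClusterStatement (𝒞 : MWDatum R) : Prop :=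
  ∃ jetF : MaximalSpectrum (Rbar R) → ℕ → (Rbar R →ₗ[QQbar] QQbar), IsFinJet jetF ∧
    ∀ (𝒦 : Type) [Field 𝒦] [Algebra ℚ 𝒦] [IsAlgClosed 𝒦] (V : ValuationSubring 𝒦),
      IsQbarValRing V → ∀ ι : QQbar →ₐ[ℚ] 𝒦,
        ∃ (cen : (R →ₐ[ℚ] 𝒦) → MaximalSpectrum (Rbar R)) (z : (R →ₐ[ℚ] 𝒦) → 𝒦),
          (∀ P, V.valuation (P 𝒞.t) ≤ 1 → V.valuation (z P) < 1) ∧
          (∀ P P', V.valuation (P 𝒞.t) ≤ 1 → V.valuation (P' 𝒞.t) ≤ 1 → cen P = cen P' →
            z P = z P' → P = P') ∧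
          ∀ (s : ℕ) (Q : Fin s → (R →ₐ[ℚ] 𝒦)) (x : MaximalSpectrum (Rbar R)),
            Function.Injective Q → (∀ a, V.valuation (Q a 𝒞.t) ≤ 1) → (∀ a, cen (Q a) = x) →
            ∀ w : R, ∃ r : Fin s → 𝒦,
              (∀ a, Q a w = ∑ i : Fin s, r i * z (Q a) ^ (i : ℕ)) ∧
              ∀ i, V.valuation (r i - ι (jetF x i ((1 : QQbar) ⊗ₜ[ℚ] w))) < 1

/-- **THE CENTRE AT INFINITY.**  Points with `|t(P)| > 1`. -/
def InfClusterStatement (𝒞 : MWDatum R) : Prop :=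
  ∃ jetI : ℕ → ℕ → (Rbar R →ₗ[QQbar] QQbar), IsInfJet 𝒞 jetI ∧
    ∀ (𝒦 : Type) [Field 𝒦] [Algebra ℚ 𝒦] [IsAlgClosed 𝒦] (V : ValuationSubring 𝒦),
      IsQbarValRing V → ∀ ι : QQbar →ₐ[ℚ] 𝒦,
        ∃ z : (R →ₐ[ℚ] 𝒦) → 𝒦,
          (∀ P, 1 < V.valuation (P 𝒞.t) →
            V.valuation (z P) ^ 𝒞.e * V.valuation (P 𝒞.t) = 1) ∧
          (∀ P P', 1 < V.valuation (P 𝒞.t) → 1 < V.valuation (P' 𝒞.t) → z P = z P' →
            P = P') ∧
          ∀ (s : ℕ) (Q : Fin s → (R →ₐ[ℚ] 𝒦)), Function.Injective Q →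
            (∀ a, 1 < V.valuation (Q a 𝒞.t)) →
            ∀ (m : ℕ) (w : R), w ∈ 𝒞.W m → ∃ r : Fin s → 𝒦,
              (∀ a, z (Q a) ^ m * Q a w = ∑ i : Fin s, r i * z (Q a) ^ (i : ℕ)) ∧
              ∀ i, V.valuation (r i - ι (jetI m i ((1 : QQbar) ⊗ₜ[ℚ] w))) < 1

/-- the combined jets, indexed by `Option (MaximalSpectrum (ℚ̄ ⊗ R))` (`none` = `∞`) -/
def combinedJet (jetF : MaximalSpectrum (Rbar R) → ℕ → (Rbar R →ₗ[QQbar] QQbar))
    (jetI : ℕ → ℕ → (Rbar R →ₗ[QQbar] QQbar)) :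
    Option (MaximalSpectrum (Rbar R)) → ℕ → ℕ → R → QQbar :=
  fun x m i w =>
    match x with
    | none => jetI m i ((1 : QQbar) ⊗ₜ[ℚ] w)
    | some 𝔐 => jetF 𝔐 i ((1 : QQbar) ⊗ₜ[ℚ] w)

/-- **RIEMANN-ROCH FOR JETS.**  Jets with the right kernels are linearly independent
(from `bar_rr`). -/
def ClusterRRStatement (𝒞 : MWDatum R) : Prop :=
  ∀ (jetF : MaximalSpectrum (Rbar R) → ℕ → (Rbar R →ₗ[QQbar] QQbar))
    (jetI : ℕ → ℕ → (Rbar R →ₗ[QQbar] QQbar)), IsFinJet jetF → IsInfJet 𝒞 jetI →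
    JetIndep 𝒞 (combinedJet jetF jetI)

/-- **CLUSTER assembly.** -/
def ClusterAssemblyStatement (𝒞 : MWDatum R) : Prop :=
  FinClusterStatement 𝒞 → InfClusterStatement 𝒞 → ClusterRRStatement 𝒞 → ClusterStatement 𝒞

/-! ### (C4) Mathlib-only tools for the two cluster rows -/

/-- **COORDINATE.**  A local homomorphism from a discrete valuation ring `O` (essentially of
finite type over `k`, residue field `k`, uniformizer `u`) to a valuation ring is determined by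
the image of `u`. -/
def CoordInjStatement : Prop :=
  ∀ (k O V : Type) [Field k] [CommRing O] [IsDomain O] [IsDiscreteValuationRing O] [Algebra k O]
    [CommRing V] [IsDomain V] [ValuationRing V] [Algebra k V]
    (u : O) (φ φ' : O →ₐ[k] V), Irreducible u →
    (∀ h : O, ∃ c : k, h - algebraMap k O c ∈ IsLocalRing.maximalIdeal O) →
    (∃ S : Finset O, ∀ h : O, ∃ p q : O, p ∈ Algebra.adjoin k (S : Set O) ∧
      q ∈ Algebra.adjoin k (S : Set O) ∧ IsUnit q ∧ h * q = p) →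
    φ u ∈ IsLocalRing.maximalIdeal V → φ u = φ' u → φ = φ'

/-- **TAYLOR.**  Taylor coefficients in a discrete valuation ring with residue field `k`. -/
def TaylorStatement : Prop :=
  ∀ (k O : Type) [Field k] [CommRing O] [IsDomain O] [IsDiscreteValuationRing O] [Algebra k O]
    (u : O), Irreducible u →
    (∀ h : O, ∃ c : k, h - algebraMap k O c ∈ IsLocalRing.maximalIdeal O) →
    ∃ T : ℕ → (O →ₗ[k] k),
      (∀ (h : O) (s : ℕ),
        h - ∑ i ∈ Finset.range s, algebraMap k O (T i h) * u ^ i ∈ Ideal.span {u ^ s}) ∧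
      ∀ (h : O) (s : ℕ), (∀ i < s, T i h = 0) ↔ h ∈ Ideal.span {u ^ s}

/-- **TEST OBJECTS.**  The residue map of a test object: `ι` takes values in the units of `V`
(and `0`), and every element of `V` is congruent to a unique `ι c`. -/
def TestObjectStatement : Prop :=
  ∀ (𝒦 : Type) [Field 𝒦] [Algebra ℚ 𝒦] [IsAlgClosed 𝒦] (V : ValuationSubring 𝒦),
    IsQbarValRing V → ∀ ι : QQbar →ₐ[ℚ] 𝒦,
      (∀ c : QQbar, c ≠ 0 → V.valuation (ι c) = 1) ∧
      (∀ x : 𝒦, V.valuation x ≤ 1 → ∃! c : QQbar, V.valuation (x - ι c) < 1)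

/-- **DICHOTOMY.**  Let `P : R → 𝒦` be a point and `Pbar : ℚ̄ ⊗ R → 𝒦` its `ι`-linear extension.
If `|t(P)| ≤ 1` then `Pbar` takes values in `V`; if `|t(P)| > 1` then
`|Pbar f| ^ e ≤ |t(P)| ^ m` for `f ∈ ℚ̄ ⊗ W m`, with equality if `f ∉ ℚ̄ ⊗ W (m - 1)`. -/
def DichotomyStatement (𝒞 : MWDatum R) : Prop :=
  ∀ (𝒦 : Type) [Field 𝒦] [Algebra ℚ 𝒦] [IsAlgClosed 𝒦] (V : ValuationSubring 𝒦),
    IsQbarValRing V → ∀ (ι : QQbar →ₐ[ℚ] 𝒦) (P : R →ₐ[ℚ] 𝒦) (Pbar : Rbar R →+* 𝒦),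
      (∀ (c : QQbar) (w : R), Pbar (c ⊗ₜ[ℚ] w) = ι c * P w) →
      (V.valuation (P 𝒞.t) ≤ 1 → ∀ f : Rbar R, V.valuation (Pbar f) ≤ 1) ∧
      (1 < V.valuation (P 𝒞.t) → ∀ (m : ℕ) (f : Rbar R), f ∈ Wbar 𝒞 m →
        V.valuation (Pbar f) ^ 𝒞.e ≤ V.valuation (P 𝒞.t) ^ m ∧
        (f ∉ Wbar 𝒞 (m - 1) → 1 ≤ m →
          V.valuation (Pbar f) ^ 𝒞.e = V.valuation (P 𝒞.t) ^ m))

end Fermat.Agent.H92.MW

end
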