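/-
P-MW (S17) -- ASSEMBLY INTERFACES (architect helper92), aligned with helper15's skeleton
(`Fermat.Agent.H15.MW.QuadHeightStatement`): the heights side delivers a quasi-quadratic
Northcott height on the class group of the datum.  Nothing is proved here.
-/
import Fermat.Agent.H92.MW.Interfaces

set_option autoImplicit false

noncomputable section

namespace Fermat.Agent.H92.MW

variable {R : Type} [CommRing R] [Algebra ℚ R] [IsDedekindDomain R]

namespace MWDatum

variable (𝒞 : MWDatum R)

/-- A quasi-quadratic Northcott height on the class group. -/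
def QuadStatement (_𝒞 : MWDatum R) : Prop :=
  ∃ (h : ClassGroup R → ℝ) (C : ℝ),
    (∀ x, 0 ≤ h x) ∧ (∀ x y, |h (x * y) + h (x / y) - 2 * (h x + h y)| ≤ C) ∧
      ∀ B : ℝ, {x : ClassGroup R | h x ≤ B}.Finite

/-- The assembly contract (row MW-ASM, final form): the seven contracts give the
quasi-quadratic height. -/
def QuadAssemblyStatement : Prop :=
  𝒞.CIStatement → 𝒞.ShiftStatement → 𝒞.WCubeStatement → 𝒞.HAddStatement → 𝒞.MinkStatement →
    𝒞.NorthStatement → 𝒞.MoveStatement → 𝒞.QuadStatement

end MWDatum

end Fermat.Agent.H92.MW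

end
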