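/-
P-MW (S17) -- INTEGRATION of the heights side (architect helper92).

`quad_of_lpf_wcube`: for every datum, the local product formula (Block C) and the cube relation
(row MW-GTAPP, WCUBE part) give the quasi-quadratic Northcott height on the class group.
All other contracts are landed unconditionally and are discharged here:
BASIC (helper88), BIHOM (helper99), NORM (helper50), LEMMA M (helper79), CAUCHY-BINET and
PLUECKER DUALITY (helper40), GAUSS-GELFOND (helper35), HADD (helper64), CI (helper87),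
GT (helper68), SHIFT (helper3), SMALL VECTOR + MINK (helper40, helper73), NORTHCOTT (helper2,
helper46), MOVE (helper30), ASSEMBLY (helper5).
-/
import Fermat.Agent.H5.MW.QuadAssembly
import Fermat.Agent.H87.MW.CI
import Fermat.Agent.H3.MW.ShiftFinal
import Fermat.Agent.H64.MW.HAdd
import Fermat.Agent.H73.MW.MinkFinal
import Fermat.Agent.H46.MW.North
import Fermat.Agent.H30.MW.MoveFinal
import Fermat.Agent.H88.MW.Basic
import Fermat.Agent.H50.MW.Norm
import Fermat.Agent.H79.MW.LemmaM
import Fermat.Agent.H68.MW.GTFinal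
import Fermat.Agent.H99.MW.Bihom
import Fermat.Agent.H40.MW.Adapters
import Fermat.Agent.H40.MW.CauchyBinet
import Fermat.Agent.H35.MW.GaussGelfond
import Fermat.Agent.H2.MW.NorthcottPoly

set_option autoImplicit false

namespace Fermat.Agent.H92.MW

variable {R : Type} [CommRing R] [Algebra ℚ R] [IsDedekindDomain R]

/-- The six contracts which do not need the local product formula. -/
theorem contracts_unconditional (𝒞 : MWDatum R) :
    BasicStatement 𝒞 ∧ 𝒞.CIStatement ∧ 𝒞.HAddStatement ∧ 𝒞.MinkStatement ∧ 𝒞.NorthStatement ∧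
      𝒞.MoveStatement := by
  have hB := Fermat.Agent.H88.MW.basic 𝒞
  have hBi := Fermat.Agent.H99.MW.bihom
  have hN := Fermat.Agent.H50.norm_of_basic 𝒞 hB hBi
  have hM := Fermat.Agent.H79.MW.lemmaM 𝒞 hBi Fermat.Agent.H40.MW.cauchyBinetStatement
  have hA := Fermat.Agent.H64.hAdd 𝒞 Fermat.Agent.H35.MWGG.gaussGelfond
  exact ⟨hB, Fermat.Agent.H87.MW.ci 𝒞 hB hM hN hA, hA,
    Fermat.Agent.H73.MWMink.mink_of_basic 𝒞 hB hN hA,
    Fermat.Agent.H46.MW.north 𝒞 Fermat.Agent.H2.northcottPoly,
    Fermat.Agent.H30.MW.move 𝒞 hB⟩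

/-- SHIFT from the local product formula. -/
theorem shift_of_lpf (𝒞 : MWDatum R) (hLPF : LPFStatement 𝒞) : 𝒞.ShiftStatement :=
  Fermat.Agent.H3.MW.shift_of 𝒞 (Fermat.Agent.H88.MW.basic 𝒞) Fermat.Agent.H68.GT.gtPrinciple hLPF
    Fermat.Agent.H40.MW.pluckerDualityHeightStatement

/-- **The heights side, modulo Block C and WCUBE.** -/
theorem quad_of_lpf_wcube (𝒞 : MWDatum R) (hLPF : LPFStatement 𝒞) (hWC : 𝒞.WCubeStatement) :
    𝒞.QuadStatement := by
  obtain ⟨_, hCI, hA, hMk, hNo, hMv⟩ := contracts_unconditional 𝒞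
  exact Fermat.Agent.H5.MW.quadAssembly 𝒞 hCI (shift_of_lpf 𝒞 hLPF) hWC hA hMk hNo hMv

end Fermat.Agent.H92.MW
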