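/-
P-MW (S17) -- FINAL INTEGRATION (architect helper92).

* `quadStatement`: for EVERY datum the class group carries a quasi-quadratic Northcott height
  (the heights side, unconditional).
* `quadHeightStatement_of_modularDatum`, `s17_of_modularDatum`: Mordell-Weil for `J₀(N)`,
  `N ≥ 5` prime, from the modular datum of Block E alone.  Weak Mordell-Weil (helper15) and the
  divisibility of `J₀(N)(ℚ̄)` (helper84) are discharged here.
-/
import Fermat.Agent.H92.MW.AbstractQuad
import Fermat.Agent.H89.MW.Lpf
import Fermat.Agent.H40.MW.WCubeAll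
import Fermat.Agent.H4.MW.QuadTransport
import Fermat.Agent.H15.MW.WeakFinal
import Fermat.Agent.H84.MWDiv.Final

set_option autoImplicit false

namespace Fermat.Agent.H92.MW

/-- **The heights side**: every datum carries a quasi-quadratic Northcott height on its class
group. -/
theorem quadStatement {R : Type} [CommRing R] [Algebra ℚ R] [IsDedekindDomain R]
    (𝒞 : MWDatum R) : 𝒞.QuadStatement :=
  quad_of_lpf_wcube 𝒞 (Fermat.Agent.H89.MW.lpfStatement 𝒞) (Fermat.Agent.H40.MW.wcubeStatement 𝒞)

/-- the quasi-quadratic height on `J₀(N)(ℚ)` from the modular datum -/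
theorem quadHeightStatement_of_modularDatum (hD : ModularDatumStatement) (N : ℕ) [NeZero N]
    (hN : N.Prime) (h5 : 5 ≤ N) : Fermat.Agent.H15.MW.QuadHeightStatement N :=
  Fermat.Agent.H4.MW.quadHeight_of_datum hD (fun _ _ _ _ 𝒞 => quadStatement 𝒞) N hN h5

/-- **S17 from the modular datum.** -/
theorem s17_of_modularDatum (hD : ModularDatumStatement) (N : ℕ) [NeZero N] (hN : N.Prime)
    (h5 : 5 ≤ N) :
    AddGroup.FG ↥(FixedPoints.addSubgroup ((AlgebraicClosure ℚ) ≃ₐ[ℚ] (AlgebraicClosure ℚ))
      (ModularCurve.JZero N)) :=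
  Fermat.Agent.H15.MW.fg_of_divisible_of_quadHeight N
    (fun x => Fermat.Agent.H84.MWDiv.exists_nsmul_eq N 2 (by norm_num) x)
    (quadHeightStatement_of_modularDatum hD N hN h5)

end Fermat.Agent.H92.MW
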